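import Mathlib

/-!
# S48, chapter RK, leaf RK-Abel : from linear partial sums to `∑ b_n n^{-t} ≤ C'/(t-1)` (Mathlib only)

SKETCH (about 120 lines).
(1) `zeta_partial` : `∑_{n < X} n^{-t} ≤ 1 + 1/(t-1)` for `t > 1` (the term `n = 0` is `0 ^ (-t) = 0`,
    `Real.zero_rpow`). E.g. by induction on `X` prove `∑_{n < X+1} n^{-t} ≤ 1 + (1 - X^{1-t})/(t-1)` for `X ≥ 1` using
    `(n+1)^{-t} ≤ (n^{1-t} - (n+1)^{1-t})/(t-1)` (mean value theorem / `AntitoneOn.sum_le_integral` +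
    `integral_rpow`), or compare with `Real.summable_nat_rpow_inv` + any bound of the tsum in Mathlib
    (`ZetaAsymp`, `tsum_...`).
(2) summation by parts (`Finset.sum_range_by_parts`, or a direct induction): with `S X = ∑_{n<X} b n ≤ C X`, `w n = n^{-t}` antitone
    on `n ≥ 1`, nonnegative: `∑_{n<X} b n w n ≤ 2 C ∑_{n<X} w n`.
    A direct way: induction-free DYADIC alternative: `∑_{2^k ≤ n < 2^{k+1}} b n n^{-t} ≤ 2^{-kt} C 2^{k+1}` and a geometric series,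
    `1 - 2^{-(t-1)} ≥ (t-1)/2` on `(1,2]`. Choose whichever is shorter; the constant `C'` is free.
-/

set_option autoImplicit false

namespace Fermat.Agent.S48.RK

theorem abel_key {t : ℝ} (ht : 1 < t) (a : ℕ) :
    ∑ i ∈ Finset.range a, ((1 : ℝ) + ((i + 1 : ℕ) : ℝ)) ^ (-t) ≤ 1 / (t - 1) := by
  have ha : (0 : ℝ) ≤ a := Nat.cast_nonneg a
  have hanti : AntitoneOn (fun x : ℝ => x ^ (-t)) (Set.Icc 1 (1 + a)) := by
    intro x hx y _ hxy
    exact Real.rpow_le_rpow_of_nonpos (by linarith [hx.1]) hxy (by linarith)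
  have h1 := hanti.sum_le_integral
  have h2 : ∫ x in (1 : ℝ)..(1 + a), x ^ (-t) =
      ((1 + a : ℝ) ^ (-t + 1) - 1 ^ (-t + 1)) / (-t + 1) := by
    apply integral_rpow
    right
    refine ⟨by linarith, ?_⟩
    rw [Set.uIcc_of_le (by linarith)]
    intro h
    linarith [h.1]
  refine h1.trans ?_
  rw [h2, Real.one_rpow]
  have h3 : 0 ≤ (1 + a : ℝ) ^ (-t + 1) := Real.rpow_nonneg (by linarith) _
  have h4 : ((1 + a : ℝ) ^ (-t + 1) - 1) / (-t + 1) = (1 - (1 + a : ℝ) ^ (-t + 1)) / (t - 1) := by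
    rw [← neg_div_neg_eq]
    congr 1 <;> ring
  rw [h4]
  exact div_le_div_of_nonneg_right (by linarith) (by linarith)

theorem zeta_partial {t : ℝ} (ht : 1 < t) (X : ℕ) :
    ∑ n ∈ Finset.range X, (n : ℝ) ^ (-t) ≤ 1 + 1 / (t - 1) := by
  have hpos : 0 < 1 / (t - 1) := one_div_pos.2 (by linarith)
  have h0 : ((0 : ℕ) : ℝ) ^ (-t) = 0 := by
    rw [Nat.cast_zero]
    exact Real.zero_rpow (by linarith)
  rcases X with _ | _ | a
  · simp only [Finset.range_zero, Finset.sum_empty]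
    linarith
  · rw [Finset.sum_range_one, h0]
    linarith
  · rw [Finset.sum_range_succ', Finset.sum_range_succ', h0]
    have h1 : ((0 + 1 : ℕ) : ℝ) ^ (-t) = 1 := by simp
    rw [h1]
    have h2 := abel_key ht a
    have h3 : ∑ k ∈ Finset.range a, ((k + 1 + 1 : ℕ) : ℝ) ^ (-t) =
        ∑ i ∈ Finset.range a, ((1 : ℝ) + ((i + 1 : ℕ) : ℝ)) ^ (-t) := by
      refine Finset.sum_congr rfl fun k _ => ?_
      congr 1
      push_cast
      ring
    rw [h3]
    linarith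

theorem abel_step {b : ℕ → ℝ} {C : ℝ} (h : ∀ X : ℕ, ∑ n ∈ Finset.range X, b n ≤ C * X)
    (hb0 : 0 ≤ b 0) {t : ℝ} (ht : 1 < t) (X : ℕ) (hX : 1 ≤ X) :
    ∑ n ∈ Finset.range X, b n * (n : ℝ) ^ (-t) + C * X * (X : ℝ) ^ (-t) ≤
      (∑ n ∈ Finset.range X, b n) * (X : ℝ) ^ (-t) +
        C * (1 + ∑ n ∈ Finset.range X, (n : ℝ) ^ (-t)) := by
  induction X, hX using Nat.le_induction with
  | base =>
    have h0 : ((0 : ℕ) : ℝ) ^ (-t) = 0 := by
      rw [Nat.cast_zero]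
      exact Real.zero_rpow (by linarith)
    simp only [Finset.sum_range_one, h0, Nat.cast_one, Real.one_rpow]
    linarith
  | succ X hX ih =>
    rw [Finset.sum_range_succ, Finset.sum_range_succ, Finset.sum_range_succ]
    have hS := h (X + 1)
    rw [Finset.sum_range_succ] at hS
    have hXpos : (0 : ℝ) < X := by exact_mod_cast hX
    have hw : ((X + 1 : ℕ) : ℝ) ^ (-t) ≤ (X : ℝ) ^ (-t) :=
      Real.rpow_le_rpow_of_nonpos hXpos (by push_cast; linarith) (by linarith)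
    have hprod := mul_nonneg (sub_nonneg.2 hS) (sub_nonneg.2 hw)
    push_cast at hprod ⊢
    nlinarith [hprod, ih]

theorem abel_bound {b : ℕ → ℝ} (hb : ∀ n, 0 ≤ b n) {C : ℝ} (hC : 0 ≤ C)
    (h : ∀ X : ℕ, ∑ n ∈ Finset.range X, b n ≤ C * X) :
    ∃ C' : ℝ, 0 < C' ∧ ∀ t ∈ Set.Ioc (1 : ℝ) 2, ∀ X : ℕ,
      ∑ n ∈ Finset.range X, b n * (n : ℝ) ^ (-t) ≤ C' / (t - 1) := by
  refine ⟨3 * C + 1, by linarith, fun t ht X => ?_⟩
  obtain ⟨ht1, ht2⟩ := ht
  have hpos : 0 < t - 1 := by linarith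
  have hone : 1 ≤ 1 / (t - 1) := by
    rw [le_div_iff₀ hpos]
    linarith
  have hgoal : C * (2 + 1 / (t - 1)) ≤ (3 * C + 1) / (t - 1) := by
    have e : (3 * C + 1) / (t - 1) = 3 * C * (1 / (t - 1)) + 1 / (t - 1) := by ring
    rw [e]
    nlinarith [mul_nonneg hC (sub_nonneg.2 hone)]
  rcases Nat.eq_zero_or_pos X with rfl | hX
  · simp only [Finset.range_zero, Finset.sum_empty]
    exact (mul_nonneg hC (by linarith)).trans hgoal
  · have h1 := abel_step h (hb 0) ht1 X hX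
    have h2 := zeta_partial ht1 X
    have hw : 0 ≤ (X : ℝ) ^ (-t) := Real.rpow_nonneg (Nat.cast_nonneg X) _
    have h3 := mul_le_mul_of_nonneg_right (h X) hw
    have h4 := mul_le_mul_of_nonneg_left h2 hC
    refine le_trans ?_ hgoal
    nlinarith [h1, h3, h4]

end Fermat.Agent.S48.RK
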