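import Fermat.Agent.S48.Defs

/-!
# S48, chapter RK, leaf RK-Euler : the squarefree part of the Rankin series

SKETCH (about 100 lines, elementary).
(1) `coeff_prod` by `Finset.induction_on` : `a (p * n) = a p * a n` if `p ∤ n` is `hf.rel p hp hpN n` with `if_neg`;
    `p ∤ ∏ q ∈ T, q` for `p ∉ T` (`Prime.dvd_finset_prod_iff`, `Nat.prime_dvd_prime_iff_eq`); empty product : `hf.one`.
(2) `Finset.prod_one_add` (or `Finset.prod_add`) : `∏ p ∈ S, (1 + u p) = ∑ T ∈ S.powerset, ∏ p ∈ T, u p`;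
    `∏ p ∈ T, ‖a p‖² p^{-t} = ‖a (∏ T)‖² (∏ T)^{-t}` (`Finset.prod_mul_distrib`, `Real.finset_prod_rpow`, `norm_prod`, `Finset.prod_pow`, `Nat.cast_prod`);
    `T ↦ ∏ T` is injective on `S.powerset` (`Nat.primeFactors_prod`), with values in `range (∏ S + 1)`
    (`Finset.prod_le_prod_of_subset_of_one_le'` / `Nat.le_of_dvd` + `Finset.prod_dvd_prod_of_subset`);
    conclude by `Finset.sum_image` + `Finset.sum_le_sum_of_subset_of_nonneg`.
-/

set_option autoImplicit false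

open CongruenceSubgroup
open scoped MatrixGroups

namespace Fermat.Agent.S48.RK

variable {N : ℕ} [NeZero N] {ε : DirichletCharacter ℂ N} {f : CuspForm (Gamma1 N) 1}

theorem coeff_prod (hf : IsEigen N ε f) (T : Finset ℕ) (hT : ∀ p ∈ T, p.Prime ∧ ¬ p ∣ N) :
    ModularFormClass.qCoeff f (∏ p ∈ T, p) = ∏ p ∈ T, ModularFormClass.qCoeff f p := by
  classical
  induction T using Finset.induction_on with
  | empty => simpa using hf.one
  | insert p T hp ih =>
    rw [Finset.prod_insert hp, Finset.prod_insert hp,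
      ← ih fun q hq => hT q (Finset.mem_insert_of_mem hq)]
    obtain ⟨hpp, hpN⟩ := hT p (Finset.mem_insert_self p T)
    have hnd : ¬ p ∣ ∏ q ∈ T, q := by
      intro hd
      obtain ⟨q, hq, hpq⟩ := (Prime.dvd_finsetProd_iff hpp.prime _).1 hd
      have := (Nat.prime_dvd_prime_iff_eq hpp (hT q (Finset.mem_insert_of_mem hq)).1).1 hpq
      exact hp (this ▸ hq)
    have := hf.rel p hpp hpN (∏ q ∈ T, q)
    rw [if_neg hnd, mul_zero, add_zero] at this
    exact this

theorem prod_le (hf : IsEigen N ε f) (S : Finset ℕ) (hS : ∀ p ∈ S, p.Prime ∧ ¬ p ∣ N) (t : ℝ) :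
    ∏ p ∈ S, (1 + ‖ModularFormClass.qCoeff f p‖ ^ 2 * (p : ℝ) ^ (-t)) ≤
      ∑ n ∈ Finset.range (∏ p ∈ S, p + 1), ‖ModularFormClass.qCoeff f n‖ ^ 2 * (n : ℝ) ^ (-t) := by
  classical
  rw [Finset.prod_one_add]
  have hterm : ∀ T ∈ S.powerset, ∏ p ∈ T, (‖ModularFormClass.qCoeff f p‖ ^ 2 * (p : ℝ) ^ (-t)) =
      ‖ModularFormClass.qCoeff f (∏ p ∈ T, p)‖ ^ 2 * ((∏ p ∈ T, p : ℕ) : ℝ) ^ (-t) := by
    intro T hT
    have hTS := Finset.mem_powerset.1 hT
    rw [Finset.prod_mul_distrib, coeff_prod hf T fun p hp => hS p (hTS hp), norm_prod,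
      Finset.prod_pow, Nat.cast_prod, Real.finsetProd_rpow _ _ fun p _ => Nat.cast_nonneg p]
  rw [Finset.sum_congr rfl hterm]
  have hinj : Set.InjOn (fun T : Finset ℕ => ∏ p ∈ T, p) (S.powerset : Set (Finset ℕ)) := by
    intro T hT T' hT' h
    have hTS := Finset.mem_powerset.1 hT
    have hTS' := Finset.mem_powerset.1 hT'
    have h1 := Nat.primeFactors_prod fun p hp => (hS p (hTS hp)).1
    have h2 := Nat.primeFactors_prod fun p hp => (hS p (hTS' hp)).1
    simp only at h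
    rw [← h1, ← h2, h]
  rw [← Finset.sum_image (f := fun n : ℕ => ‖ModularFormClass.qCoeff f n‖ ^ 2 * (n : ℝ) ^ (-t)) hinj]
  apply Finset.sum_le_sum_of_subset_of_nonneg
  · intro n hn
    obtain ⟨T, hT, rfl⟩ := Finset.mem_image.1 hn
    have hTS := Finset.mem_powerset.1 hT
    rw [Finset.mem_range, Nat.lt_succ_iff]
    refine Nat.le_of_dvd ?_ (Finset.prod_dvd_prod_of_subset _ _ _ hTS)
    exact Finset.prod_pos fun p hp => (hS p hp).1.pos
  · intro n _ _
    exact mul_nonneg (by positivity) (Real.rpow_nonneg (Nat.cast_nonneg n) _)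

end Fermat.Agent.S48.RK
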