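import Mathlib

/-!
# S48, chapter RK, leaf RK-Log : from a bounded product to a bounded sum (Mathlib only)

SKETCH (about 60 lines). `Real.log_prod`, `Real.log_le_log`.
* `sum_le_of_prod_le_sharp` : `u - u²/2 ≤ log (1+u)` for `u ≥ 0`
  (monotonicity of `log (1+u) - u + u²/2`, or `Real.le_log_one_add_of_nonneg : 2u/(u+2) ≤ log(1+u)` and `2u/(u+2) ≥ u - u²/2`).
* `sum_le_of_prod_le_weak` : for `0 ≤ u ≤ c` : `log (1+u) ≥ 2u/(u+2) ≥ 2u/(c+2)`, so `u ≤ (c+2)/2 * log (1+u)`.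
-/

set_option autoImplicit false

namespace Fermat.Agent.S48.RK

theorem log_sum_log_le {ι : Type*} (S : Finset ι) (u : ι → ℝ) (hu : ∀ i ∈ S, 0 ≤ u i)
    {A : ℝ} (hA : ∏ i ∈ S, (1 + u i) ≤ A) : ∑ i ∈ S, Real.log (1 + u i) ≤ Real.log A := by
  rw [← Real.log_prod fun i hi => by have := hu i hi; positivity]
  exact Real.log_le_log (Finset.prod_pos fun i hi => by have := hu i hi; positivity) hA

theorem sum_le_of_prod_le_sharp {ι : Type*} (S : Finset ι) (u : ι → ℝ) (hu : ∀ i ∈ S, 0 ≤ u i)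
    {A : ℝ} (hA : ∏ i ∈ S, (1 + u i) ≤ A) :
    ∑ i ∈ S, u i ≤ Real.log A + ∑ i ∈ S, u i ^ 2 / 2 := by
  have h1 := log_sum_log_le S u hu hA
  have h2 : ∑ i ∈ S, u i ≤ ∑ i ∈ S, Real.log (1 + u i) + ∑ i ∈ S, u i ^ 2 / 2 := by
    rw [← Finset.sum_add_distrib]
    refine Finset.sum_le_sum fun i hi => ?_
    have h0 := hu i hi
    have h3 := Real.le_log_one_add_of_nonneg h0
    have h4 : u i - u i ^ 2 / 2 ≤ 2 * u i / (u i + 2) := by
      rw [le_div_iff₀ (by positivity)]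
      nlinarith [mul_nonneg h0 (mul_nonneg h0 h0)]
    linarith
  linarith

theorem sum_le_of_prod_le_weak {ι : Type*} (S : Finset ι) (u : ι → ℝ) (hu : ∀ i ∈ S, 0 ≤ u i)
    {c : ℝ} (hc0 : 0 ≤ c) (hc : ∀ i ∈ S, u i ≤ c) {A : ℝ} (hA : ∏ i ∈ S, (1 + u i) ≤ A) :
    ∑ i ∈ S, u i ≤ (c + 2) / 2 * Real.log A := by
  have h1 := log_sum_log_le S u hu hA
  have h2 : ∑ i ∈ S, u i ≤ (c + 2) / 2 * ∑ i ∈ S, Real.log (1 + u i) := by
    rw [Finset.mul_sum]
    refine Finset.sum_le_sum fun i hi => ?_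
    have h0 := hu i hi
    have h3 := Real.le_log_one_add_of_nonneg h0
    have h4 : 2 * u i / (c + 2) ≤ 2 * u i / (u i + 2) :=
      div_le_div_of_nonneg_left (by positivity) (by positivity) (by linarith [hc i hi])
    have h5 : u i = (c + 2) / 2 * (2 * u i / (c + 2)) := by
      field_simp
    calc u i = (c + 2) / 2 * (2 * u i / (c + 2)) := h5
      _ ≤ (c + 2) / 2 * Real.log (1 + u i) :=
        mul_le_mul_of_nonneg_left (h4.trans h3) (by positivity)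
  exact h2.trans (mul_le_mul_of_nonneg_left h1 (by positivity))

end Fermat.Agent.S48.RK
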