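import Fermat.Agent.S48.RK.Mean
import Fermat.Agent.S48.RK.Abel
import Fermat.Agent.S48.RK.Euler
import Fermat.Agent.S48.RK.Log

/-!
# S48, chapter RK : the Rankin bounds `∑ |a_p|² p^{-t} ≤ K log (1/(t-1)) + C`

* `prod_bound` : `∏_{p ∈ S} (1 + |a_p|² p^{-t}) ≤ C'/(t-1)`;
* `weak_finset`, `weak_summable`, `weak_bound` : the bound with some constant `K`;
* `sharp_finset`, `sharp_bound` : the bound with `K = 1` if `|a_p| ≤ 2`.
-/

set_option autoImplicit false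

open CongruenceSubgroup
open scoped MatrixGroups

namespace Fermat.Agent.S48.RK

variable {N : ℕ} [NeZero N] {ε : DirichletCharacter ℂ N} {f : CuspForm (Gamma1 N) 1}

theorem LL_nonneg {t : ℝ} (ht : t ∈ Set.Ioc (1 : ℝ) 2) : 0 ≤ LL t := by
  unfold LL
  apply Real.log_nonneg
  rw [le_div_iff₀ (by linarith [ht.1])]
  linarith [ht.2]

theorem log_div_eq {C' t : ℝ} (hC' : 0 < C') (ht : 1 < t) :
    Real.log (C' / (t - 1)) = Real.log C' + LL t := by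
  unfold LL
  rw [div_eq_mul_one_div, Real.log_mul hC'.ne' (by have : 0 < t - 1 := by linarith
                                                   positivity)]

theorem prod_bound (hf : IsEigen N ε f) :
    ∃ C' : ℝ, 0 < C' ∧ ∀ t ∈ Set.Ioc (1 : ℝ) 2, ∀ S : Finset ℕ,
      (∀ p ∈ S, p.Prime ∧ ¬ p ∣ N) →
      ∏ p ∈ S, (1 + ‖ModularFormClass.qCoeff f p‖ ^ 2 * (p : ℝ) ^ (-t)) ≤ C' / (t - 1) := by
  obtain ⟨C, hC, h⟩ := mean_sq f
  obtain ⟨C', hC', h'⟩ := abel_bound (b := fun n => ‖ModularFormClass.qCoeff f n‖ ^ 2)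
    (fun n => by positivity) hC h
  exact ⟨C', hC', fun t ht S hS => (prod_le hf S hS t).trans (h' t ht _)⟩

theorem weak_finset (hf : IsEigen N ε f) :
    ∃ K C : ℝ, 0 ≤ K ∧ 0 ≤ C ∧ ∀ t ∈ Set.Ioc (1 : ℝ) 2, ∀ S : Finset ℕ,
      (∀ p ∈ S, p.Prime ∧ ¬ p ∣ N) →
      ∑ p ∈ S, ‖ModularFormClass.qCoeff f p‖ ^ 2 * (p : ℝ) ^ (-t) ≤ K * LL t + C := by
  obtain ⟨C, hC, h⟩ := mean_sq f
  obtain ⟨C', hC', h'⟩ := prod_bound hf
  refine ⟨(2 * C + 2) / 2, (2 * C + 2) / 2 * |Real.log C'|, by positivity, by positivity,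
    fun t ht S hS => ?_⟩
  have key := sum_le_of_prod_le_weak S
    (fun p => ‖ModularFormClass.qCoeff f p‖ ^ 2 * (p : ℝ) ^ (-t)) (fun p _ => by positivity)
    (c := 2 * C) (by positivity) (fun p hp => ?_) (h' t ht S hS)
  · rw [log_div_eq hC' ht.1] at key
    refine key.trans ?_
    have : Real.log C' ≤ |Real.log C'| := le_abs_self _
    have h0 : 0 ≤ (2 * C + 2) / 2 := by positivity
    nlinarith
  · have hp1 : 1 ≤ p := (hS p hp).1.one_lt.le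
    have hp1' : (1 : ℝ) ≤ p := by exact_mod_cast hp1
    have h1 : ‖ModularFormClass.qCoeff f p‖ ^ 2 ≤ C * ((p + 1 : ℕ) : ℝ) := by
      refine le_trans ?_ (h (p + 1))
      exact Finset.single_le_sum (f := fun n => ‖ModularFormClass.qCoeff f n‖ ^ 2)
        (fun n _ => by positivity) (Finset.self_mem_range_succ p)
    have h2 : (p : ℝ) ^ (-t) ≤ (p : ℝ) ^ (-1 : ℝ) :=
      Real.rpow_le_rpow_of_exponent_le hp1' (by linarith [ht.1])
    have h3 : (p : ℝ) ^ (-1 : ℝ) = (p : ℝ)⁻¹ := Real.rpow_neg_one _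
    calc ‖ModularFormClass.qCoeff f p‖ ^ 2 * (p : ℝ) ^ (-t)
        ≤ (C * ((p + 1 : ℕ) : ℝ)) * (p : ℝ)⁻¹ := by
          rw [← h3]
          exact mul_le_mul h1 h2 (by positivity) (by positivity)
      _ ≤ 2 * C := by
          push_cast
          rw [← div_eq_mul_inv, div_le_iff₀ (by linarith)]
          nlinarith

theorem sharp_finset (hf : IsEigen N ε f)
    (h2 : ∀ p : ℕ, p.Prime → ¬ p ∣ N → ‖ModularFormClass.qCoeff f p‖ ≤ 2) :
    ∃ C : ℝ, 0 ≤ C ∧ ∀ t ∈ Set.Ioc (1 : ℝ) 2, ∀ S : Finset ℕ,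
      (∀ p ∈ S, p.Prime ∧ ¬ p ∣ N) →
      ∑ p ∈ S, ‖ModularFormClass.qCoeff f p‖ ^ 2 * (p : ℝ) ^ (-t) ≤ LL t + C := by
  obtain ⟨C', hC', h'⟩ := prod_bound hf
  refine ⟨|Real.log C'| + 16, by positivity, fun t ht S hS => ?_⟩
  have key := sum_le_of_prod_le_sharp S
    (fun p => ‖ModularFormClass.qCoeff f p‖ ^ 2 * (p : ℝ) ^ (-t)) (fun p _ => by positivity)
    (h' t ht S hS)
  rw [log_div_eq hC' ht.1] at key
  have hsq : ∑ p ∈ S, (‖ModularFormClass.qCoeff f p‖ ^ 2 * (p : ℝ) ^ (-t)) ^ 2 / 2 ≤ 16 := by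
    have hterm : ∀ p ∈ S, (‖ModularFormClass.qCoeff f p‖ ^ 2 * (p : ℝ) ^ (-t)) ^ 2 / 2 ≤
        8 * (p : ℝ) ^ (-2 : ℝ) := by
      intro p hp
      have hp1' : (1 : ℝ) ≤ p := by exact_mod_cast (hS p hp).1.one_lt.le
      have ha : ‖ModularFormClass.qCoeff f p‖ ^ 2 ≤ 4 := by
        have := h2 p (hS p hp).1 (hS p hp).2
        nlinarith [norm_nonneg (ModularFormClass.qCoeff f p)]
      have hpw : ((p : ℝ) ^ (-t)) ^ 2 ≤ (p : ℝ) ^ (-2 : ℝ) := by
        rw [← Real.rpow_natCast, ← Real.rpow_mul (by linarith)]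
        exact Real.rpow_le_rpow_of_exponent_le hp1' (by push_cast; linarith [ht.1])
      have hpos : 0 ≤ ((p : ℝ) ^ (-t)) ^ 2 := by positivity
      have ha0 : 0 ≤ ‖ModularFormClass.qCoeff f p‖ ^ 2 := by positivity
      rw [mul_pow]
      have : (‖ModularFormClass.qCoeff f p‖ ^ 2) ^ 2 ≤ 16 := by nlinarith
      nlinarith
    have hsub : S ⊆ Finset.range (S.sup id + 1) := fun p hp =>
      Finset.mem_range.2 (Nat.lt_succ_of_le (Finset.le_sup (f := id) hp))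
    calc ∑ p ∈ S, (‖ModularFormClass.qCoeff f p‖ ^ 2 * (p : ℝ) ^ (-t)) ^ 2 / 2
        ≤ ∑ p ∈ S, 8 * (p : ℝ) ^ (-2 : ℝ) := Finset.sum_le_sum hterm
      _ ≤ ∑ p ∈ Finset.range (S.sup id + 1), 8 * (p : ℝ) ^ (-2 : ℝ) :=
          Finset.sum_le_sum_of_subset_of_nonneg hsub (fun p _ _ => by positivity)
      _ = 8 * ∑ p ∈ Finset.range (S.sup id + 1), (p : ℝ) ^ (-2 : ℝ) := by
          rw [Finset.mul_sum]
      _ ≤ 8 * (1 + 1 / (2 - 1)) := by
          have := zeta_partial (t := 2) (by norm_num) (S.sup id + 1)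
          linarith
      _ = 16 := by norm_num
  have : Real.log C' ≤ |Real.log C'| := le_abs_self _
  linarith

/-- the weight function of `wSum`. -/
noncomputable def wt (N : ℕ) [NeZero N] (f : CuspForm (Gamma1 N) 1) (p : ℕ) : ℝ :=
  if p ∣ N then 0 else ‖ModularFormClass.qCoeff f p‖ ^ 2

theorem wt_nonneg (p : ℕ) : 0 ≤ wt N f p := by
  unfold wt; split_ifs <;> positivity

/-- from finite sets of good primes to finite sets of primes. -/
theorem sum_subtype_le {t B : ℝ}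
    (h : ∀ S : Finset ℕ, (∀ p ∈ S, p.Prime ∧ ¬ p ∣ N) →
      ∑ p ∈ S, ‖ModularFormClass.qCoeff f p‖ ^ 2 * (p : ℝ) ^ (-t) ≤ B)
    (s : Finset {p : ℕ | p.Prime}) :
    ∑ p ∈ s, wt N f p * ((p : ℕ) : ℝ) ^ (-t) ≤ B := by
  classical
  have h1 : ∑ p ∈ s, wt N f p * ((p : ℕ) : ℝ) ^ (-t) =
      ∑ p ∈ s.map (Function.Embedding.subtype _), wt N f p * (p : ℝ) ^ (-t) := by
    rw [Finset.sum_map]; rfl
  rw [h1, ← Finset.sum_filter_add_sum_filter_not _ (fun p => ¬ p ∣ N)]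
  have h2 : ∑ p ∈ (s.map (Function.Embedding.subtype _)).filter (fun p => ¬ ¬ p ∣ N),
      wt N f p * (p : ℝ) ^ (-t) = 0 := by
    apply Finset.sum_eq_zero
    intro p hp
    have : p ∣ N := not_not.1 (Finset.mem_filter.1 hp).2
    simp [wt, this]
  rw [h2, add_zero]
  refine le_trans (le_of_eq ?_) (h ((s.map (Function.Embedding.subtype _)).filter
    (fun p => ¬ p ∣ N)) ?_)
  · apply Finset.sum_congr rfl
    intro p hp
    have : ¬ p ∣ N := (Finset.mem_filter.1 hp).2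
    simp [wt, this]
  · intro p hp
    obtain ⟨hp1, hp2⟩ := Finset.mem_filter.1 hp
    obtain ⟨q, _, rfl⟩ := Finset.mem_map.1 hp1
    exact ⟨q.2, hp2⟩

theorem weak_summable (hf : IsEigen N ε f) {t : ℝ} (ht : t ∈ Set.Ioc (1 : ℝ) 2) :
    Summable (fun p : {p : ℕ | p.Prime} => wt N f p * ((p : ℕ) : ℝ) ^ (-t)) := by
  obtain ⟨K, C, _, _, h⟩ := weak_finset hf
  exact summable_of_sum_le (fun p => mul_nonneg (wt_nonneg _) (by positivity))
    (sum_subtype_le (h t ht))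

theorem weak_bound (hf : IsEigen N ε f) :
    ∃ K C : ℝ, 0 ≤ K ∧ 0 ≤ C ∧ ∀ t ∈ Set.Ioc (1 : ℝ) 2,
      wSum (fun p => if p ∣ N then 0 else ‖ModularFormClass.qCoeff f p‖ ^ 2) t ≤ K * LL t + C := by
  obtain ⟨K, C, hK, hC, h⟩ := weak_finset hf
  refine ⟨K, C, hK, hC, fun t ht => ?_⟩
  exact tsum_le_of_sum_le' (by have := LL_nonneg ht; positivity) (sum_subtype_le (h t ht))

theorem sharp_bound (hf : IsEigen N ε f)
    (h2 : ∀ p : ℕ, p.Prime → ¬ p ∣ N → ‖ModularFormClass.qCoeff f p‖ ≤ 2) :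
    ∃ C : ℝ, ∀ t ∈ Set.Ioc (1 : ℝ) 2,
      wSum (fun p => if p ∣ N then 0 else ‖ModularFormClass.qCoeff f p‖ ^ 2) t ≤ LL t + C := by
  obtain ⟨C, hC, h⟩ := sharp_finset hf h2
  refine ⟨C, fun t ht => ?_⟩
  exact tsum_le_of_sum_le' (by have := LL_nonneg ht; positivity) (sum_subtype_le (h t ht))

end Fermat.Agent.S48.RK
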