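import Fermat.Agent.S48.Defs

/-!
# S48, chapter RK, leaf RK-Bessel : Bessel's inequality on a horizontal line

For a cusp form `f` on `Γ₁(N)` (any weight) with `q`-coefficients `a_n`, and `y > 0`:
`∑_{n < X} |a_n|² e^{-4π n y} ≤ sup_{im τ = y} |f τ|²`.

SKETCH (about 120 lines, Mathlib only).
* `g : C(AddCircle (1:ℝ), ℂ)` := the descent of `x ↦ f ⟨x + y * I, _⟩` to `AddCircle 1`
  (periodicity : `SlashInvariantFormClass.vAdd_apply_of_mem_strictPeriods` /
  `ModularFormClass.periodic_comp_ofComplex f h1`, `h1 : (1:ℝ) ∈ (Gamma1 N : Subgroup (GL (Fin 2) ℝ)).strictPeriods := by simp`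
  (`strictPeriods_Gamma1`); descent : `Function.Periodic.lift`, continuity through
  `continuous_quotient_lift` / `QuotientAddGroup.continuous_lift`-style lemma, or use
  `AddCircle.liftIco_continuous`/`AddCircle.liftIco`).
* `fourierCoeff g n = a_n * exp (-2π n y)` for `n : ℕ` : `fourierCoeff_eq_intervalIntegral g n 0` and
  `ModularFormClass.qExpansion_coeff_eq_intervalIntegral f one_pos h1 n hy`
  (`1 / 𝕢 1 (u + y I) ^ n = fourier (-n) u * exp (2π n y)`, `fourier_coe_apply`, `Function.Periodic.qParam`).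
* Parseval `tsum_sq_fourierCoeff (ContinuousMap.toLp 2 haarAddCircle ℂ g)`, `fourierCoeff_toLp`;
  summability of `‖fourierCoeff‖²` from `(fourierBasis.repr _).2` (`lp.memℓp`, `memℓp_gen_iff`) or `hasSum_sq_fourierCoeff`;
  restrict the sum over `ℤ` to the finite set `(range X).map Nat.castEmbedding` (`Summable.sum_le_tsum`).
* `∫ ‖g‖² ∂haarAddCircle ≤ B²` (probability measure; `integral_mono`, or `norm_integral_le_of_norm_le_const`);
  `ContinuousMap.coeFn_toLp` gives a.e. equality.
* `‖a_n exp(-2π n y)‖² = ‖a_n‖² exp(-(4π n y))`.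
-/

set_option autoImplicit false

open CongruenceSubgroup UpperHalfPlane
open scoped MatrixGroups

namespace Fermat.Agent.S48.RK

theorem bessel {N : ℕ} [NeZero N] {k : ℤ} (f : CuspForm (Gamma1 N) k) {y B : ℝ} (hy : 0 < y)
    (hB : ∀ τ : ℍ, τ.im = y → ‖f τ‖ ≤ B) (X : ℕ) :
    ∑ n ∈ Finset.range X,
      ‖ModularFormClass.qCoeff f n‖ ^ 2 * Real.exp (-(4 * Real.pi * n * y)) ≤ B ^ 2 := by
  have h1 : (1 : ℝ) ∈ (Gamma1 N : Subgroup (GL (Fin 2) ℝ)).strictPeriods := by simp
  have him : ∀ x : ℝ, 0 < ((x : ℂ) + y * Complex.I).im := by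
    intro x
    simpa using hy
  set g : ℝ → ℂ := fun x => f ⟨(x : ℂ) + y * Complex.I, him x⟩ with hg
  have hgB : ∀ x, ‖g x‖ ≤ B := by
    intro x
    apply hB
    show ((x : ℂ) + y * Complex.I).im = y
    simp
  have hgc : Continuous g := by
    have h2 : ContinuousOn (f ∘ ofComplex) {z : ℂ | 0 < z.im} :=
      (UpperHalfPlane.mdifferentiable_iff.1 (CuspFormClass.holo f)).continuousOn
    have h3 : Continuous fun x : ℝ => (x : ℂ) + y * Complex.I := by fun_prop
    have h4 : g = (f ∘ ofComplex) ∘ fun x : ℝ => (x : ℂ) + y * Complex.I := by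
      funext x
      simp only [hg, Function.comp_apply, ofComplex_apply_of_im_pos (him x)]
    rw [h4]
    exact h2.comp_continuous h3 him
  have hL2 : MeasureTheory.MemLp g 2 (MeasureTheory.volume.restrict (Set.Ioc (0 : ℝ) 1)) :=
    MeasureTheory.MemLp.of_bound hgc.aestronglyMeasurable B (Filter.Eventually.of_forall hgB)
  have hsum := hasSum_sq_fourierCoeffOn (zero_lt_one' ℝ) hL2
  -- the Fourier coefficients
  have hcoef : ∀ n : ℕ, ‖fourierCoeffOn (zero_lt_one' ℝ) g (n : ℤ)‖ ^ 2 =
      ‖ModularFormClass.qCoeff f n‖ ^ 2 * Real.exp (-(4 * Real.pi * n * y)) := by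
    intro n
    have e1 : ModularFormClass.qCoeff f n =
        Complex.exp (2 * Real.pi * n * y) * fourierCoeffOn (zero_lt_one' ℝ) g (n : ℤ) := by
      rw [ModularFormClass.qCoeff,
        ModularFormClass.qExpansion_coeff_eq_intervalIntegral f one_pos h1 n hy,
        fourierCoeffOn_eq_integral]
      simp only [sub_zero, div_one, one_smul, Complex.ofReal_one, one_mul]
      rw [← intervalIntegral.integral_const_mul]
      congr 1
      funext u
      rw [fourier_coe_apply, smul_eq_mul, ← mul_assoc]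
      congr 1
      rw [Function.Periodic.qParam, ← Complex.exp_nat_mul, one_div, ← Complex.exp_neg,
        ← Complex.exp_add]
      congr 1
      push_cast
      have := Complex.I_sq
      ring_nf
      rw [this]
      ring
    rw [e1, norm_mul, mul_pow]
    have e2 : ‖Complex.exp (2 * Real.pi * n * y)‖ = Real.exp (2 * Real.pi * n * y) := by
      rw [Complex.norm_exp]
      congr 1
      have : (2 * (Real.pi : ℂ) * n * y) = ((2 * Real.pi * n * y : ℝ) : ℂ) := by push_cast; ring
      rw [this, Complex.ofReal_re]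
    rw [e2, mul_right_comm, ← Real.exp_nat_mul, ← Real.exp_add]
    have e3 : ((2 : ℕ) : ℝ) * (2 * Real.pi * n * y) + -(4 * Real.pi * n * y) = 0 := by
      push_cast; ring
    rw [e3, Real.exp_zero, one_mul]
  have hle : ∑ i ∈ (Finset.range X).map Nat.castEmbedding,
      ‖fourierCoeffOn (zero_lt_one' ℝ) g i‖ ^ 2 ≤
      ((1 : ℝ) - 0)⁻¹ • ∫ x in (0 : ℝ)..1, ‖g x‖ ^ 2 :=
    sum_le_hasSum _ (fun i _ => by positivity) hsum
  rw [Finset.sum_map] at hle
  have hint : ((1 : ℝ) - 0)⁻¹ • ∫ x in (0 : ℝ)..1, ‖g x‖ ^ 2 ≤ B ^ 2 := by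
    have h5 := intervalIntegral.norm_integral_le_of_norm_le_const (a := (0 : ℝ)) (b := 1)
      (f := fun x => ‖g x‖ ^ 2) (C := B ^ 2) (fun x _ => by
        rw [Real.norm_of_nonneg (by positivity)]
        exact pow_le_pow_left₀ (norm_nonneg _) (hgB x) 2)
    simp only [sub_zero, inv_one, one_smul, abs_one, mul_one] at h5 ⊢
    exact (le_abs_self _).trans h5
  refine le_trans (le_of_eq ?_) (hle.trans hint)
  refine Finset.sum_congr rfl fun n _ => ?_
  rw [← hcoef n]
  rfl

end Fermat.Agent.S48.RK
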