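import Fermat.Agent.S48.RK.Bessel

/-!
# S48, chapter RK, leaf RK-Mean : `∑_{n < X} |a_n|² ≤ C X` for a cusp form of weight one

SKETCH (about 50 lines). `CuspFormClass.exists_bound f : ∃ C, ∀ τ, ‖f τ‖ ≤ C / τ.im ^ ((1:ℤ) / 2 : ℝ)`.
WLOG `0 ≤ C` (evaluate at any `τ`). For `X = 0` trivial. For `X ≥ 1` apply `bessel f (y := 1 / X)` with
`B = C / (1/X)^(1/2)`, `B² = C² X` (`Real.rpow_natCast`, `← Real.rpow_mul`, or `Real.sqrt_eq_rpow` + `Real.sq_sqrt`);
for `n < X` : `exp (-(4π n / X)) ≥ exp (-(4π))`. So the constant `C² exp (4π)` works.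
-/

set_option autoImplicit false

open CongruenceSubgroup UpperHalfPlane
open scoped MatrixGroups

namespace Fermat.Agent.S48.RK

theorem mean_sq {N : ℕ} [NeZero N] (f : CuspForm (Gamma1 N) 1) :
    ∃ C : ℝ, 0 ≤ C ∧ ∀ X : ℕ,
      ∑ n ∈ Finset.range X, ‖ModularFormClass.qCoeff f n‖ ^ 2 ≤ C * X := by
  obtain ⟨C, hC⟩ := CuspFormClass.exists_bound f
  refine ⟨C ^ 2 * Real.exp (4 * Real.pi), by positivity, fun X => ?_⟩
  rcases Nat.eq_zero_or_pos X with rfl | hX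
  · simp
  have hX' : (0 : ℝ) < X := by exact_mod_cast hX
  set y : ℝ := 1 / X with hy
  have hy0 : 0 < y := by positivity
  have hb := bessel f (y := y) (B := C / y ^ ((((1 : ℤ) : ℝ)) / 2)) hy0 (fun τ hτ => by
    have := hC τ
    rwa [hτ] at this) X
  have hB2 : (C / y ^ ((((1 : ℤ) : ℝ)) / 2)) ^ 2 = C ^ 2 * X := by
    rw [div_pow, ← Real.rpow_natCast (y ^ ((((1 : ℤ) : ℝ)) / 2)) 2, ← Real.rpow_mul hy0.le]
    have : (((1 : ℤ) : ℝ)) / 2 * ((2 : ℕ) : ℝ) = 1 := by norm_num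
    rw [this, Real.rpow_one, hy]
    field_simp
  rw [hB2] at hb
  have hle : Real.exp (-(4 * Real.pi)) * ∑ n ∈ Finset.range X, ‖ModularFormClass.qCoeff f n‖ ^ 2 ≤
      ∑ n ∈ Finset.range X,
        ‖ModularFormClass.qCoeff f n‖ ^ 2 * Real.exp (-(4 * Real.pi * n * y)) := by
    rw [Finset.mul_sum]
    refine Finset.sum_le_sum fun n hn => ?_
    rw [mul_comm]
    refine mul_le_mul_of_nonneg_left ?_ (by positivity)
    rw [Real.exp_le_exp, neg_le_neg_iff]
    have hn' : (n : ℝ) ≤ X := by exact_mod_cast (Finset.mem_range.1 hn).le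
    have h1 : (n : ℝ) * y ≤ 1 := by
      rw [hy, mul_one_div, div_le_one hX']
      exact hn'
    have hpi := Real.pi_pos
    calc 4 * Real.pi * n * y = 4 * Real.pi * (n * y) := by ring
      _ ≤ 4 * Real.pi * 1 := by
        apply mul_le_mul_of_nonneg_left h1 (by positivity)
      _ = 4 * Real.pi := by ring
  have h2 := hle.trans hb
  have h3 : Real.exp (4 * Real.pi) * Real.exp (-(4 * Real.pi)) = 1 := by
    rw [← Real.exp_add]; simp
  calc ∑ n ∈ Finset.range X, ‖ModularFormClass.qCoeff f n‖ ^ 2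
      = Real.exp (4 * Real.pi) * (Real.exp (-(4 * Real.pi)) *
          ∑ n ∈ Finset.range X, ‖ModularFormClass.qCoeff f n‖ ^ 2) := by
        rw [← mul_assoc, h3, one_mul]
    _ ≤ Real.exp (4 * Real.pi) * (C ^ 2 * X) :=
        mul_le_mul_of_nonneg_left h2 (Real.exp_pos _).le
    _ = C ^ 2 * Real.exp (4 * Real.pi) * X := by ring

end Fermat.Agent.S48.RK
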